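import Fermat.Agent.S26.SpecDeg

/-!
# Row S26, block FF, leaf FFRank (helper660)

For a finite flat morphism `φ : X ⟶ Y` of integral schemes preserving the generic point, the rank
of `φ` at the generic point of `Y` is the degree of the extension of function fields.
-/

set_option autoImplicit false
universe u

open CategoryTheory CategoryTheory.Limits AlgebraicGeometry

namespace Fermat.Agent.S26.FF.H660

noncomputable section

/-- Over a domain, the rank at any stalk of a finite flat algebra which is a domain is the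
degree of the extension of fraction fields. -/
theorem rankAtStalk_eq_finrank_frac660 (R S K L : Type*) [CommRing R] [CommRing S] [IsDomain R]
    [Algebra R S] [Module.Finite R S] [Module.Flat R S]
    [CommRing K] [CommRing L] [Algebra R K] [IsFractionRing R K] [Algebra S L]
    [IsFractionRing S L] [Module K L] [Algebra R L] [IsScalarTower R K L] [IsScalarTower R S L]
    (p : PrimeSpectrum R) : Module.rankAtStalk S p = Module.finrank K L := by
  rw [IsFractionRing.finrank_eq R K S L]
  exact (Ideal.finrank_fiber_eq_rankAtStalk (M := S) p.asIdeal).symm.trans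
    (Ideal.finrank_fiber_eq_finrank p.asIdeal)

/-- The degree `[L : σ K]` computed with the algebra structure given by `σ`. -/
theorem finrank_fieldRange660 {K L : Type*} [Field K] [Field L] (σ : K →+* L) :
    Module.finrank σ.fieldRange L = @Module.finrank K L _ _ σ.toAlgebra.toModule := by
  let _ : Algebra K L := σ.toAlgebra
  refine (Algebra.finrank_eq_of_equiv_equiv σ.rangeRestrictFieldEquiv (RingEquiv.refl L) ?_).symm
  ext x
  rfl

section General

variable {X Y : Scheme.{u}} [IsIntegral X] [IsIntegral Y]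

/-- The map of function fields on germs. -/
theorem ffMap_germ660 (φ : X ⟶ Y) (h : φ (genericPoint X) = genericPoint Y) (V : Y.Opens)
    (hV : genericPoint Y ∈ V) (s : Γ(Y, V)) :
    ffMap φ h (Y.presheaf.germ V (genericPoint Y) hV s) =
      X.presheaf.germ (φ ⁻¹ᵁ V) (genericPoint X)
        (show φ (genericPoint X) ∈ V from h ▸ hV) (φ.app V s) := by
  unfold ffMap
  simp only [TopCat.Presheaf.stalkCongr_hom, CommRingCat.hom_comp, RingHom.comp_apply]
  have e1 := TopCat.Presheaf.germ_stalkSpecializes_apply Y.presheaf (U := V) (y := genericPoint Y)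
    hV (x := φ (genericPoint X)) (Inseparable.of_eq h.symm).ge s
  have e2 := Scheme.Hom.germ_stalkMap_apply φ V (genericPoint X) (h ▸ hV) s
  exact (congrArg (φ.stalkMap (genericPoint X)) e1).trans e2

/-- **FF2.**  The rank at the generic point of a finite flat morphism of integral schemes
preserving the generic point is the degree of the extension of function fields. -/
theorem finrank_genericPoint_eq_ffDeg660 (φ : X ⟶ Y) [IsFinite φ] [Flat φ]
    (h : φ (genericPoint X) = genericPoint Y) :
    φ.finrank (genericPoint Y) = ffDeg φ h := by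
  obtain ⟨V, hV, hηV⟩ : ∃ V : Y.Opens, IsAffineOpen V ∧ genericPoint Y ∈ V := by
    obtain ⟨_, ⟨V, hV, rfl⟩, hx, -⟩ :=
      Y.isBasis_affineOpens.exists_subset_of_mem_open (Set.mem_univ (genericPoint Y)) isOpen_univ
    exact ⟨V, hV, hx⟩
  have hU : IsAffineOpen (φ ⁻¹ᵁ V) := hV.preimage φ
  have hηU : genericPoint X ∈ φ ⁻¹ᵁ V := show φ (genericPoint X) ∈ V from h ▸ hηV
  have : Nonempty V := ⟨⟨_, hηV⟩⟩
  have : Nonempty (φ ⁻¹ᵁ V) := ⟨⟨_, hηU⟩⟩
  have H : IsPullback (Spec.map (φ.app V)) hU.fromSpec hV.fromSpec φ := by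
    apply IsOpenImmersion.isPullback
    · rw [← Scheme.Hom.appLE_eq_app]
      exact (IsAffineOpen.SpecMap_appLE_fromSpec φ hV hU le_rfl).symm
    · simp
  have hfin : IsFinite (Spec.map (φ.app V)) := MorphismProperty.of_isPullback H.flip ‹_›
  have hflat : Flat (Spec.map (φ.app V)) := MorphismProperty.of_isPullback H.flip ‹_›
  rw [IsFinite.SpecMap_iff] at hfin
  rw [Flat.SpecMap_iff] at hflat
  obtain ⟨y, hy⟩ : ∃ y : Spec Γ(Y, V), hV.fromSpec y = genericPoint Y :=
    ⟨hV.primeIdealOf ⟨_, hηV⟩, hV.fromSpec_primeIdealOf _⟩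
  have e1 : φ.finrank (genericPoint Y) = Scheme.Hom.finrank (Spec.map (φ.app V)) y := by
    rw [Scheme.Hom.finrank_of_isPullback _ _ _ _ H.flip, hy]
  rw [e1, Scheme.Hom.finrank_SpecMap_eq_finrank hfin hflat, ffDeg, finrank_fieldRange660]
  let _ : Algebra Γ(Y, V) Γ(X, φ ⁻¹ᵁ V) := (φ.app V).hom.toAlgebra
  let _ : Algebra Y.functionField X.functionField := (ffMap φ h).toAlgebra
  let _ : Algebra Γ(Y, V) X.functionField :=
    ((algebraMap Γ(X, φ ⁻¹ᵁ V) X.functionField).comp (algebraMap Γ(Y, V) Γ(X, φ ⁻¹ᵁ V))).toAlgebra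
  have : IsScalarTower Γ(Y, V) Γ(X, φ ⁻¹ᵁ V) X.functionField := .of_algebraMap_eq' rfl
  have : IsScalarTower Γ(Y, V) Y.functionField X.functionField :=
    .of_algebraMap_eq' (by ext s; exact (ffMap_germ660 φ h V hηV s).symm)
  have := functionField_isFractionRing_of_isAffineOpen X _ hU
  have := functionField_isFractionRing_of_isAffineOpen Y V hV
  have : Module.Finite Γ(Y, V) Γ(X, φ ⁻¹ᵁ V) := hfin
  have : Module.Flat Γ(Y, V) Γ(X, φ ⁻¹ᵁ V) := hflat
  exact rankAtStalk_eq_finrank_frac660 Γ(Y, V) Γ(X, φ ⁻¹ᵁ V) Y.functionField X.functionField _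

end General

/-- **Leaf FFRank of row S26**: the rank of the finite etale morphism `[n]` at the generic point
is the degree of the extension of function fields. -/
theorem ffRank660 (K : Type u) [Field K] [IsAlgClosed K] : Stmt.FFRank K := by
  intro X _ n _ hfin het h
  have : Flat (X.nsmulHom n) := inferInstance
  exact finrank_genericPoint_eq_ffDeg660 _ h

end

end Fermat.Agent.S26.FF.H660
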